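import Fermat.Agent.Posner.Rowen
import Mathlib.RingTheory.Localization.BaseChange
import Mathlib.RingTheory.Localization.FractionRing

/-!
# Posner's theorem

In a prime algebra the central elements are regular; inverting them gives an algebra in which every
nonzero ideal contains a central unit, hence a simple one, and Kaplansky's theorem applies.
-/

set_option autoImplicit false

noncomputable section

namespace FA.Posner

open Equiv
open scoped TensorProduct
open FA.Regev (IsMultiId)

/-- The ring is prime: `x R y = 0` forces `x = 0` or `y = 0`. -/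
def IsPrimeAlg (R : Type*) [Ring R] : Prop :=
  ∀ x y : R, (∀ r, x * r * y = 0) → x = 0 ∨ y = 0

variable {K : Type*} [Field K] {R : Type*} [Ring R] [Algebra K R]

theorem IsPrimeAlg.semiprime (h : IsPrimeAlg R) : IsSemiprimeRing R :=
  fun x hx => (h x x hx).elim id id

omit [Algebra K R] in
theorem center_regular (hR : IsPrimeAlg R) {z : Subring.center R} (hz : z ≠ 0) {r : R}
    (h : (z : R) * r = 0) : r = 0 := by
  refine (hR z r fun t => ?_).resolve_left fun e => hz (Subtype.ext e)
  rw [← Subring.mem_center_iff.1 z.2 t, mul_assoc, h, mul_zero]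

variable [Nontrivial R]

omit [Algebra K R] in
theorem isDomain_center (hR : IsPrimeAlg R) : IsDomain (Subring.center R) := by
  have : NoZeroDivisors (Subring.center R) := ⟨fun {x y} h => by
    refine or_iff_not_imp_left.2 fun hx => Subtype.ext (center_regular hR hx ?_)
    exact congrArg Subtype.val h⟩
  exact NoZeroDivisors.to_isDomain _

/-- **Posner's theorem.** -/
theorem posner_localization (hR : IsPrimeAlg R) [IsDomain (Subring.center R)] {d : ℕ}
    {a : Perm (Fin d) → K} (hid : IsMultiId R a) (ha : a ≠ 0) :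
    let F := FractionRing (Subring.center R)
    Function.Injective (fun r : R => (1 : F) ⊗ₜ[Subring.center R] r) ∧
      IsSimpleRing (F ⊗[Subring.center R] R) ∧
      Algebra.IsCentral F (F ⊗[Subring.center R] R) ∧
      Module.Finite F (F ⊗[Subring.center R] R) ∧
      Module.finrank F (F ⊗[Subring.center R] R) ≤ (d / 2) ^ 2 := by
  intro F
  set Z := Subring.center R
  set Q := F ⊗[Z] R
  set ι := TensorProduct.mk Z F R 1
  have hloc : IsLocalizedModule (nonZeroDivisors Z) ι := inferInstance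
  have hreg : ∀ (z : nonZeroDivisors Z) (r : R), (z : Z) • r = 0 → r = 0 := fun z r h =>
    center_regular hR (nonZeroDivisors.ne_zero z.2) h
  have hinj : Function.Injective ι := fun r r' h => by
    obtain ⟨z, hz⟩ := (IsLocalizedModule.eq_iff_exists (nonZeroDivisors Z) ι).1 h
    refine sub_eq_zero.1 (hreg z _ ?_)
    rw [smul_sub, sub_eq_zero]
    exact hz
  have hsurj : ∀ q : Q, ∃ (r : R) (z : Z), z ≠ 0 ∧ algebraMap Z F z • q = (1 : F) ⊗ₜ[Z] r :=
    fun q => by
    obtain ⟨⟨r, z⟩, h⟩ := IsLocalizedModule.surj (nonZeroDivisors Z) ι q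
    exact ⟨r, z, nonZeroDivisors.ne_zero z.2, by
      rw [algebraMap_smul]; exact h⟩
  have hu : ∀ z : Z, z ≠ 0 → algebraMap Z F z ≠ 0 := fun z hz h =>
    hz (IsFractionRing.injective Z F (by rw [h, map_zero]))
  have hmk : ∀ z : Z, (1 : F) ⊗ₜ[Z] (z : R) = algebraMap F Q (algebraMap Z F z) := fun z => by
    rw [Algebra.TensorProduct.algebraMap_apply, Algebra.algebraMap_self, RingHom.id_apply,
      Algebra.algebraMap_eq_smul_one, TensorProduct.smul_tmul]
    congr 1
    exact (mul_one (z : R)).symm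
  have hQnt : Nontrivial Q := hinj.nontrivial
  have hsimple : IsSimpleRing Q := by
    refine IsSimpleRing.of_eq_bot_or_eq_top fun J => or_iff_not_imp_left.2 fun hJ => ?_
    obtain ⟨q, hq, hq0⟩ : ∃ q ∈ J, q ≠ 0 := by
      by_contra! h
      exact hJ (eq_bot_iff.2 fun y hy => by simp [h y hy])
    obtain ⟨r, z, hz, hr⟩ := hsurj q
    have hr0 : r ≠ 0 := fun e => hq0 (by
      rw [e, TensorProduct.tmul_zero, smul_eq_zero] at hr
      exact hr.resolve_left (hu z hz))
    let I : TwoSidedIdeal R := J.comap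
      (Algebra.TensorProduct.includeRight : R →ₐ[Z] Q)
    obtain ⟨c, hc, hc0, hcc⟩ := exists_central_mem hR.semiprime hid ha (I := I) (c₀ := r)
      ((TwoSidedIdeal.mem_comap _).2 (by
        show (1 : F) ⊗ₜ[Z] r ∈ J
        rw [← hr, show algebraMap Z F z • q = algebraMap F Q (algebraMap Z F z) * q from
          Algebra.smul_def (R := F) (A := Q) _ q]
        exact J.mul_mem_left _ _ hq)) hr0
    have hmem : algebraMap F Q (algebraMap Z F ⟨c, hcc⟩) ∈ J := by
      rw [← hmk]
      exact (TwoSidedIdeal.mem_comap (Algebra.TensorProduct.includeRight : R →ₐ[Z] Q)).1 hc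
    refine (TwoSidedIdeal.one_mem_iff J).1 ?_
    have hne := hu ⟨c, hcc⟩
      fun e => hc0 (congrArg Subtype.val e)
    have := J.mul_mem_left (algebraMap F Q (algebraMap Z F ⟨c, hcc⟩)⁻¹) _ hmem
    rwa [← map_mul, inv_mul_cancel₀ hne, map_one] at this
  have hcentral : Algebra.IsCentral F Q := ⟨fun q hq => by
    obtain ⟨r, z, hz, hr⟩ := hsurj q
    have hrc : r ∈ Z := Subring.mem_center_iff.2 fun t => hinj (by
      show (1 : F) ⊗ₜ[Z] (t * r) = (1 : F) ⊗ₜ[Z] (r * t)
      have h1 : ∀ x y : R, (1 : F) ⊗ₜ[Z] (x * y) = (1 ⊗ₜ[Z] x) * (1 ⊗ₜ[Z] y : Q) := fun x y => by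
        rw [Algebra.TensorProduct.tmul_mul_tmul, one_mul]
      rw [h1, h1, ← hr, mul_smul_comm, smul_mul_assoc, Subalgebra.mem_center_iff.1 hq])
    refine Algebra.mem_bot.2 ⟨(algebraMap Z F z)⁻¹ * algebraMap Z F ⟨r, hrc⟩, ?_⟩
    rw [map_mul, ← hmk, ← hr, ← Algebra.smul_def, inv_smul_smul₀ (hu z hz)]⟩
  have hl : IsFull fun σ : Perm (Fin d) => List.ofFn σ := fun σ =>
    ⟨List.nodup_ofFn.2 σ.injective, fun v => List.mem_ofFn.2 ⟨σ.symm v, σ.apply_symm_apply v⟩⟩
  obtain ⟨aZ, haZ⟩ : ∃ aZ : Perm (Fin d) → Z, ∀ σ, (aZ σ : R) = algebraMap K R (a σ) :=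
    ⟨fun σ => ⟨algebraMap K R (a σ), Subring.mem_center_iff.2 fun r =>
      (Algebra.commutes (a σ) r).symm⟩, fun _ => rfl⟩
  have hidQ : IsMultiId Q fun σ => algebraMap Z F (aZ σ) := fun x => by
    have h := evalWords_tensor (Z := Z) (B := F) aZ _ hl (fun r => by
      simpa [evalWords, List.map_ofFn, Function.comp_def, Subring.smul_def, Algebra.smul_def,
        show ∀ z : Z, algebraMap Z R z = (z : R) from fun _ => rfl, haZ] using hid r) x
    simpa [evalWords, List.map_ofFn, Function.comp_def, algebraMap_smul] using h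
  have := hsimple
  obtain ⟨m, hm, -⟩ := Ideal.exists_le_maximal (⊥ : Ideal Q) bot_ne_top
  have : IsSimpleModule Q (Q ⧸ m) := isSimpleModule_iff_isCoatom.2 (Ideal.isMaximal_def.1 hm)
  have : FaithfulSMul Q (Q ⧸ m) := by
    refine ⟨fun {q q'} h => ?_⟩
    let π : Q →+* AddMonoid.End (Q ⧸ m) := Module.toAddMonoidEnd Q (Q ⧸ m)
    have : Nontrivial (Q ⧸ m) := IsSimpleModule.nontrivial Q _
    have : Nontrivial (AddMonoid.End (Q ⧸ m)) := ⟨⟨0, 1, fun e => by
      obtain ⟨y, hy⟩ := exists_ne (0 : Q ⧸ m)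
      exact hy (congrArg (fun f : AddMonoid.End (Q ⧸ m) => f y) e).symm⟩⟩
    exact RingHom.injective π (AddMonoidHom.ext h)
  obtain ⟨σ, hσ⟩ := Function.ne_iff.1 ha
  obtain ⟨-, hfin, hrank⟩ := Fermat.Agent.KaplanskyPI.kaplansky_multilinear (M := Q ⧸ m)
    (F := F) (a := fun σ => algebraMap Z F (aZ σ)) hidQ (σ₀ := σ)
    (isUnit_iff_ne_zero.2 (hu _ fun h =>
      hσ ((map_eq_zero_iff _ (algebraMap K R).injective).1 (by rw [← haZ, h]; rfl))))
  let : Field (Subring.center Q) := (IsSimpleRing.isField_center Q).toField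
  let b := Module.finBasis (Subring.center Q) Q
  have hspan : (⊤ : Submodule F Q) ≤ Submodule.span F (Set.range b) := fun q _ => by
    rw [← b.sum_repr q]
    refine sum_mem fun i _ => ?_
    obtain ⟨f, hf⟩ := Algebra.mem_bot.1 (hcentral.out (Subalgebra.mem_center_iff.2
      (Subring.mem_center_iff.1 (b.repr q i).2) :
        ((b.repr q i : Subring.center Q) : Q) ∈ Subalgebra.center F Q))
    rw [Subring.smul_def, smul_eq_mul, ← hf, ← Algebra.smul_def]
    exact Submodule.smul_mem _ _ (Submodule.subset_span ⟨i, rfl⟩)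
  have hfinF : Module.Finite F Q := ⟨top_le_iff.1 hspan ▸ Submodule.fg_span (Set.finite_range b)⟩
  refine ⟨hinj, hsimple, hcentral, hfinF, ?_⟩
  have := finrank_range_le_card (R := F) (fun i => b i)
  rw [Set.finrank, top_le_iff.1 hspan, finrank_top, Fintype.card_fin] at this
  exact this.trans hrank

end FA.Posner
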