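import Fermat.Agent.Posner.Words
import Mathlib.LinearAlgebra.Determinant
import Mathlib.LinearAlgebra.Matrix.Adjugate
import Mathlib.LinearAlgebra.Matrix.Basis
import Mathlib.LinearAlgebra.Matrix.FiniteDimensional
import Mathlib.LinearAlgebra.Matrix.Trace

/-!
# Razmyslov's central polynomial

An alternating form in `n ^ 2` matrices of size `n` is a multiple of the determinant. Written as
`a ↦ trace (a * uᵢ)` in each argument it gives, by Cramer's rule, vectors `uᵢ` dual to the
arguments, and `∑ xᵢ b uᵢ` is then a scalar.
-/

set_option autoImplicit false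

noncomputable section

namespace FA.Posner

open Equiv Matrix

/-- The variables: `n ^ 2` slots, the fillers between them and one more. -/
abbrev CVar (n : ℕ) : Type := (Fin (n * n) ⊕ Fin (n * n + 1)) ⊕ Unit

/-- A slot. -/
abbrev slot {n : ℕ} (i : Fin (n * n)) : CVar n := Sum.inl (Sum.inl i)

/-- A filler. -/
abbrev filler {n : ℕ} (j : Fin (n * n + 1)) : CVar n := Sum.inl (Sum.inr j)

/-- The last variable. -/
abbrev mid {n : ℕ} : CVar n := Sum.inr ()

variable {n : ℕ}

/-- The segments of a word of the alternating polynomial. -/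
def segments (σ : Perm (Fin (n * n))) : List (List (CVar n)) :=
  List.ofFn fun l => [slot (σ l), filler l.succ]

/-- The words of the central polynomial. -/
def cWord (t : Perm (Fin (n * n)) × Fin (n * n)) : List (CVar n) :=
  [slot (t.1 t.2), mid] ++ ([filler t.2.succ] ++ ((segments t.1).drop (t.2 + 1)).flatten) ++
    (filler 0 :: ((segments t.1).take t.2).flatten)

/-- The coefficients of the central polynomial. -/
def cCoeff (Z : Type*) [CommRing Z] (t : Perm (Fin (n * n)) × Fin (n * n)) : Z :=
  ((Perm.sign t.1 : ℤ) : Z)

theorem isFull_cWord : IsFull (cWord (n := n)) := fun t => by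
  obtain ⟨σ, k⟩ := t
  have hk : (k : ℕ) < (segments σ).length := by simp [segments]
  have hperm : (cWord (σ, k)).Perm (mid :: filler 0 :: (segments σ).flatten) := by
    have e : segments σ = (segments σ).take k ++
        [slot (σ k), filler k.succ] :: (segments σ).drop (k + 1) := by
      conv_lhs => rw [← List.take_append_drop k (segments σ), List.drop_eq_getElem_cons hk]
      simp [segments]
    conv_rhs => rw [e]
    rw [← Multiset.coe_eq_coe]
    simp only [cWord, List.flatten_append, List.flatten_cons, ← Multiset.cons_coe,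
      ← Multiset.coe_add, Multiset.coe_nil, ← Multiset.singleton_add]
    abel
  have hmem : ∀ v : CVar n, v ∈ mid :: filler 0 :: (segments σ).flatten := by
    rintro ((i | j) | u)
    · refine List.mem_cons_of_mem _ (List.mem_cons_of_mem _ (List.mem_flatten.2
        ⟨[slot (σ (σ.symm i)), filler (σ.symm i).succ], List.mem_ofFn.2 ⟨_, rfl⟩, ?_⟩))
      simp
    · induction j using Fin.cases with
      | zero => simp
      | succ l =>
        refine List.mem_cons_of_mem _ (List.mem_cons_of_mem _ (List.mem_flatten.2
          ⟨[slot (σ l), filler l.succ], List.mem_ofFn.2 ⟨_, rfl⟩, ?_⟩))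
        simp
    · exact List.mem_cons_self
  refine ⟨hperm.nodup_iff.2 ?_, fun v => hperm.mem_iff.2 (hmem v)⟩
  set L := (mid (n := n)) :: filler 0 :: (segments σ).flatten
  have hcard : L.dedup.length = L.length := by
    rw [← List.card_toFinset, Finset.eq_univ_iff_forall.2 fun v => List.mem_toFinset.2 (hmem v)]
    simp [L, segments, List.length_flatten, List.map_ofFn, Function.comp_def]
    omega
  rw [← List.Sublist.eq_of_length L.dedup_sublist hcard]
  exact List.nodup_dedup L

/-- The central polynomial. -/
def cPoly (Z : Type*) [CommRing Z] {A : Type*} [Ring A] [Algebra Z A] (x : CVar n → A) : A :=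
  evalWords (cCoeff Z) cWord x

section eval

variable {A : Type*} [Ring A]

/-- The factors of a word of the alternating polynomial. -/
def factors (X : Fin (n * n) → A) (Y : Fin (n * n + 1) → A) (σ : Perm (Fin (n * n))) : List A :=
  List.ofFn fun l => X (σ l) * Y l.succ

/-- The dual of the `i`th slot. -/
def dualAt (X : Fin (n * n) → A) (Y : Fin (n * n + 1) → A) (i : Fin (n * n)) : A :=
  ∑ σ : Perm (Fin (n * n)), (Perm.sign σ : ℤ) •
    (Y (σ.symm i).succ * ((factors X Y σ).drop (σ.symm i + 1)).prod *
      (Y 0 * ((factors X Y σ).take (σ.symm i)).prod))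

theorem cPoly_eq {Z : Type*} [CommRing Z] [Algebra Z A] (x : CVar n → A) :
    cPoly Z x =
      ∑ i, x (slot i) * x mid * dualAt (fun i => x (slot i)) (fun j => x (filler j)) i := by
  obtain ⟨X, hX⟩ : ∃ X, X = fun i => x (slot i) := ⟨_, rfl⟩
  obtain ⟨Y, hY⟩ : ∃ Y, Y = fun j => x (filler j) := ⟨_, rfl⟩
  have hseg : ∀ σ : Perm (Fin (n * n)),
      (segments σ).map (fun s => (s.map x).prod) = factors X Y σ := fun σ => by
    simp [segments, factors, hX, hY, List.map_ofFn, Function.comp_def]
  rw [← hX, ← hY]
  simp only [dualAt, Finset.mul_sum]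
  rw [Finset.sum_comm, cPoly, evalWords, Fintype.sum_prod_type]
  refine Finset.sum_congr rfl fun σ _ => ?_
  rw [← Equiv.sum_comp σ.symm fun k => cCoeff Z (σ, k) • ((cWord (σ, k)).map x).prod]
  refine Finset.sum_congr rfl fun i _ => ?_
  rw [mul_smul_comm, cCoeff, Int.cast_smul_eq_zsmul]
  congr 1
  simp only [cWord, List.map_append, List.map_cons, List.map_nil, List.prod_append, List.prod_cons,
    List.prod_nil, mul_one, List.map_flatten, List.prod_flatten, List.map_map, List.map_drop,
    List.map_take, Equiv.apply_symm_apply]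
  rw [show List.map (List.prod ∘ List.map x) (segments σ) = factors X Y σ from hseg σ]
  simp only [hY, mul_assoc]

end eval

section field

variable {F : Type*} [Field F] {m : ℕ}

local notation "M" => Matrix (Fin m) (Fin m) F

/-- The alternating form. -/
def altForm (Y : Fin (n * n + 1) → M) : M [⋀^Fin (n * n)]→ₗ[F] F :=
  MultilinearMap.alternatization
    (((Matrix.traceLinearMap (Fin m) F F).comp (LinearMap.mulLeft F (Y 0))).compMultilinearMap
      ((MultilinearMap.mkPiAlgebraFin F (n * n) M).compLinearMap
        fun l => LinearMap.mulRight F (Y l.succ)))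

theorem altForm_apply (Y : Fin (n * n + 1) → M) (X : Fin (n * n) → M) :
    altForm Y X = ∑ σ : Perm (Fin (n * n)),
      (Perm.sign σ : ℤ) • (Y 0 * (factors X Y σ).prod).trace := by
  rw [altForm, MultilinearMap.alternatization_apply]
  refine Finset.sum_congr rfl fun σ _ => ?_
  simp [Units.smul_def, factors]

theorem altForm_update (Y : Fin (n * n + 1) → M) (X : Fin (n * n) → M) (i : Fin (n * n)) (a : M) :
    altForm Y (Function.update X i a) = (a * dualAt X Y i).trace := by
  rw [altForm_apply, dualAt, Finset.mul_sum, Matrix.trace_sum]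
  refine Finset.sum_congr rfl fun σ _ => ?_
  rw [mul_smul_comm, Matrix.trace_smul]
  congr 1
  have hf : factors (Function.update X i a) Y σ =
      (factors X Y σ).set (σ.symm i) (a * Y (σ.symm i).succ) := by
    refine List.ext_getElem (by simp [factors]) fun k h1 h2 => ?_
    simp only [factors, List.getElem_ofFn, List.getElem_set]
    split_ifs with hk
    · have e : (⟨k, by simpa [factors] using h1⟩ : Fin (n * n)) = σ.symm i := Fin.ext hk.symm
      simp [e]
    · rw [Function.update_of_ne]
      exact fun e => hk (by rw [← e, σ.symm_apply_apply])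
  rw [hf, List.prod_set, if_pos (by simp [factors])]
  simp only [mul_assoc]
  rw [← mul_assoc (Y 0), Matrix.trace_mul_comm (Y 0 * _)]
  simp only [mul_assoc]

theorem trace_single_mul (q s : Fin m) (u : M) : (single q s (1 : F) * u).trace = u s q := by
  simp [Matrix.trace, Matrix.diag, Matrix.mul_apply, Matrix.single_apply, ite_and]

/-- **The polynomial on smaller matrices.** -/
theorem cPoly_eq_zero (hm : m < n) (x : CVar n → M) : cPoly F x = 0 := by
  rw [cPoly_eq]
  refine Finset.sum_eq_zero fun i _ => ?_
  have hu : dualAt (fun i => x (slot i)) (fun j => x (filler j)) i = 0 := by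
    ext s q
    refine (trace_single_mul q s _).symm.trans ?_
    rw [← altForm_update]
    refine AlternatingMap.map_linearDependent _ _ fun h => ?_
    have := h.fintype_card_le_finrank
    rw [Fintype.card_fin, Module.finrank_matrix, Fintype.card_fin, Module.finrank_self,
      mul_one] at this
    exact absurd this (not_le.2 (Nat.mul_self_lt_mul_self hm))
  rw [hu, mul_zero]

end field

/-- **Centrality.** -/
theorem cPoly_eq_smul {F : Type*} [Field F] (x : CVar n → Matrix (Fin n) (Fin n) F) :
    cPoly F x = (altForm (fun j => x (filler j)) (fun i => x (slot i)) * (x mid).trace) •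
      (1 : Matrix (Fin n) (Fin n) F) := by
  obtain ⟨X, hX⟩ : ∃ X, X = fun i => x (slot i) := ⟨_, rfl⟩
  obtain ⟨Y, hY⟩ : ∃ Y, Y = fun j => x (filler j) := ⟨_, rfl⟩
  set bs := (Matrix.stdBasis F (Fin n) (Fin n)).reindex finProdFinEquiv
  have hdual : ∀ a, altForm Y X • a = ∑ i, (a * dualAt X Y i).trace • X i := by
    intro a
    refine bs.ext_elem fun j => ?_
    simp only [← altForm_update]
    rw [(altForm Y).eq_smul_basis_det bs]
    have h := congrFun (Matrix.mulVec_cramer (bs.toMatrix X) (bs.repr a)) j
    simp only [Matrix.mulVec, dotProduct, Matrix.cramer_apply, Pi.smul_apply, smul_eq_mul] at h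
    simp only [AlternatingMap.smul_apply, map_sum, map_smul, Finsupp.coe_finsetSum,
      Finset.sum_apply,
      Finsupp.smul_apply, smul_eq_mul, Module.Basis.det_apply]
    rw [mul_assoc, ← h, Finset.mul_sum]
    refine Finset.sum_congr rfl fun i _ => ?_
    rw [Module.Basis.toMatrix_update, Module.Basis.toMatrix_apply]
    ring
  rw [cPoly_eq, ← hX, ← hY]
  ext p q
  simp only [Matrix.sum_apply, Matrix.mul_apply, Matrix.smul_apply, Finset.sum_mul, smul_eq_mul]
  rw [Finset.sum_comm]
  have hX' : ∀ i, x (slot i) = X i := fun i => by rw [hX]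
  simp only [hX']
  have h2 : ∀ r s, ∑ i, dualAt X Y i s q * X i p r =
      altForm Y X * single q s (1 : F) p r := fun r s => by
    have := congrFun (congrFun (hdual (single q s 1)) p) r
    simpa [Matrix.sum_apply, trace_single_mul] using this.symm
  calc _ = ∑ s, ∑ r, x mid r s * ∑ i, dualAt X Y i s q * X i p r := by
        refine Finset.sum_congr rfl fun s _ => ?_
        rw [Finset.sum_comm]
        refine Finset.sum_congr rfl fun r _ => ?_
        rw [Finset.mul_sum]
        exact Finset.sum_congr rfl fun i _ => by ring
    _ = _ := by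
        simp only [h2, Matrix.single_apply, Matrix.one_apply, Matrix.trace, Matrix.diag_apply,
          Finset.mul_sum]
        by_cases hpq : p = q
        · subst hpq
          simp [mul_comm]
        · simp [hpq, Ne.symm hpq]

/-- **The value one.** -/
theorem exists_cPoly_eq_one (n : ℕ) (F : Type*) [Field F] :
    ∃ x : CVar n → Matrix (Fin n) (Fin n) F, cPoly F x = 1 := by
  rcases Nat.eq_zero_or_pos n with rfl | hn
  · exact ⟨fun _ => 1, Subsingleton.elim _ _⟩
  let o : Fin n := ⟨0, hn⟩
  let e : Fin (n * n) ≃ Fin n × Fin n := finProdFinEquiv.symm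
  let head : ℕ → Fin n := fun k => if h : k < n * n then (e ⟨k, h⟩).1 else o
  let X : Fin (n * n) → Matrix (Fin n) (Fin n) F := fun i => single (e i).1 (e i).2 1
  let Y : Fin (n * n + 1) → Matrix (Fin n) (Fin n) F :=
    Fin.cases (single o (head 0) 1) fun l => single (e l).2 (head (l + 1)) 1
  refine ⟨Sum.elim (Sum.elim X Y) fun _ => single o o 1, ?_⟩
  rw [cPoly_eq_smul]
  simp only [Sum.elim_inl, Sum.elim_inr]
  have key : ∀ (σ : Perm (Fin (n * n))) k, k ≤ n * n → Y 0 * ((factors X Y σ).take k).prod =
      if ∀ l : Fin (n * n), (l : ℕ) < k → σ l = l then single o (head k) 1 else 0 := by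
    intro σ k
    induction k with
    | zero => intro _; simp [Y]
    | succ k ih =>
      intro hk
      rw [List.prod_take_succ _ _ (by simp [factors]; omega), ← mul_assoc, ih (by omega)]
      simp only [factors, List.getElem_ofFn]
      have hY : Y (Fin.succ ⟨k, by omega⟩) = single (e ⟨k, by omega⟩).2 (head (k + 1)) 1 := rfl
      rw [hY]
      have hhead : head k = (e ⟨k, by omega⟩).1 := dif_pos _
      by_cases h1 : ∀ l : Fin (n * n), (l : ℕ) < k → σ l = l
      · rw [if_pos h1, ← mul_assoc]
        by_cases h2 : σ ⟨k, by omega⟩ = ⟨k, by omega⟩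
        · rw [if_pos fun l hl => ?_]
          · simp [X, h2, hhead]
          · rcases Nat.lt_succ_iff_lt_or_eq.1 hl with h | h
            · exact h1 l h
            · rw [show l = ⟨k, by omega⟩ from Fin.ext h]; exact h2
        · rw [if_neg fun h => h2 (h _ (Nat.lt_succ_self k))]
          have h3 := e.injective.ne h2
          simp only [ne_eq, Prod.ext_iff, not_and_or] at h3
          rcases h3 with h3 | h3
          · simp only [X]
            rw [hhead, Matrix.single_mul_single_of_ne _ _ _ _ (Ne.symm h3), zero_mul]
          · simp only [X]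
            rw [mul_assoc, Matrix.single_mul_single_of_ne _ _ _ _ h3, mul_zero]
      · rw [if_neg h1, zero_mul, if_neg fun h => h1 fun l hl => h l (Nat.lt_succ_of_lt hl)]
  have hφ : altForm Y X = 1 := by
    rw [altForm_apply, Finset.sum_eq_single 1 (fun σ _ hσ => ?_) (by simp)]
    · have h := key 1 (n * n) le_rfl
      rw [List.take_of_length_le (by simp [factors]),
        if_pos fun (l : Fin (n * n)) (_ : (l : ℕ) < n * n) => Perm.one_apply l] at h
      rw [h]
      simp [head]
    · have h := key σ (n * n) le_rfl
      rw [List.take_of_length_le (by simp [factors]),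
        if_neg fun h' => hσ (Equiv.ext fun l => h' l l.2)] at h
      simp [h]
  rw [hφ, Matrix.trace_single_eq_same]
  simp

end FA.Posner
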