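import Mathlib.Data.List.NodupEquivFin
import Mathlib.LinearAlgebra.Multilinear.Basic
import Mathlib.LinearAlgebra.TensorProduct.Finiteness
import Mathlib.RingTheory.TensorProduct.Basic
import Mathlib.Algebra.Polynomial.AlgebraMap

/-!
# Multilinear polynomials

A multilinear polynomial is a combination of words, each containing every variable once. Its
vanishing passes to polynomial rings and to commutative extensions of scalars.
-/

set_option autoImplicit false

noncomputable section

namespace FA.Posner

open scoped TensorProduct Polynomial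

variable {V ι : Type*} [Fintype V] [Fintype ι]

/-- Every variable occurs once in every word. -/
def IsFull (l : ι → List V) : Prop := ∀ i, (l i).Nodup ∧ ∀ v, v ∈ l i

/-- The value of a combination of words. -/
def evalWords {Z A : Type*} [CommRing Z] [Ring A] [Algebra Z A] (c : ι → Z) (l : ι → List V)
    (x : V → A) : A :=
  ∑ i, c i • ((l i).map x).prod

variable {Z A : Type*} [CommRing Z] [Ring A] [Algebra Z A]

/-- The product along a word as a multilinear map. -/
def wordMap (Z A : Type*) [CommRing Z] [Ring A] [Algebra Z A] [DecidableEq V] (l : List V)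
    (h : l.Nodup ∧ ∀ v, v ∈ l) : MultilinearMap Z (fun _ : V => A) A :=
  (MultilinearMap.mkPiAlgebraFin Z l.length A).domDomCongr
    (List.Nodup.getEquivOfForallMemList l h.1 h.2)

omit [Fintype V] in
theorem wordMap_apply [DecidableEq V] (l : List V) (h : l.Nodup ∧ ∀ v, v ∈ l) (x : V → A) :
    wordMap Z A l h x = (l.map x).prod := by
  rw [wordMap, MultilinearMap.domDomCongr_apply, MultilinearMap.mkPiAlgebraFin_apply]
  exact congrArg List.prod (List.ofFn_getElem_eq_map l x)

/-- A multilinear polynomial as a multilinear map. -/
def wordsMap [DecidableEq V] (c : ι → Z) (l : ι → List V) (hl : IsFull l) (A : Type*) [Ring A]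
    [Algebra Z A] : MultilinearMap Z (fun _ : V => A) A :=
  ∑ i, c i • wordMap Z A (l i) (hl i)

omit [Fintype V] in
theorem wordsMap_apply [DecidableEq V] (c : ι → Z) (l : ι → List V) (hl : IsFull l) (x : V → A) :
    wordsMap c l hl A x = evalWords c l x := by
  simp [wordsMap, evalWords, wordMap_apply]

omit [Fintype V] in
theorem map_evalWords {A' : Type*} [Ring A'] [Algebra Z A'] (f : A →ₐ[Z] A') (c : ι → Z)
    (l : ι → List V) (x : V → A) : f (evalWords c l x) = evalWords c l fun v => f (x v) := by
  simp [evalWords, map_list_prod, List.map_map, Function.comp_def]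

theorem prod_map_eq_prod_univ {M : Type*} [CommMonoid M] {l : List V}
    (h : l.Nodup ∧ ∀ v, v ∈ l) (f : V → M) : (l.map f).prod = ∏ v, f v := by
  classical
  rw [← List.prod_toFinset f h.1]
  exact Finset.prod_congr (Finset.eq_univ_iff_forall.2 fun v => List.mem_toFinset.2 (h.2 v))
    fun _ _ => rfl

omit [Fintype V] in
theorem prod_map_tmul {B : Type*} [CommRing B] [Algebra Z B] (b : V → B) (r : V → A) :
    ∀ l : List V, (l.map fun v => b v ⊗ₜ[Z] r v).prod = (l.map b).prod ⊗ₜ[Z] (l.map r).prod
  | [] => by simp [Algebra.TensorProduct.one_def]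
  | v :: l => by
    simp only [List.map_cons, List.prod_cons]
    rw [prod_map_tmul b r l, Algebra.TensorProduct.tmul_mul_tmul]

/-- **Extension of scalars.** -/
theorem evalWords_tensor {B : Type*} [CommRing B] [Algebra Z B] (c : ι → Z) (l : ι → List V)
    (hl : IsFull l) (h : ∀ r : V → A, evalWords c l r = 0) (x : V → B ⊗[Z] A) :
    evalWords c l x = 0 := by
  classical
  choose S hS using fun v => TensorProduct.exists_finset (x v)
  rw [← wordsMap_apply c l hl, show x = fun v => ∑ p ∈ S v, p.1 ⊗ₜ[Z] p.2 from funext hS,
    MultilinearMap.map_sum_finset]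
  refine Finset.sum_eq_zero fun r _ => ?_
  rw [wordsMap_apply]
  have e : evalWords c l (fun v => (r v).1 ⊗ₜ[Z] (r v).2) =
      (∏ v, (r v).1) ⊗ₜ[Z] evalWords c l fun v => (r v).2 := by
    simp only [evalWords, TensorProduct.tmul_sum, prod_map_tmul, TensorProduct.tmul_smul,
      prod_map_eq_prod_univ (hl _)]
  rw [e, h, TensorProduct.tmul_zero]

omit [Fintype V] in
theorem prod_map_monomial (k : V → ℕ) (r : V → A) :
    ∀ l : List V, (l.map fun v => Polynomial.monomial (k v) (r v)).prod =
      Polynomial.monomial (l.map k).sum (l.map r).prod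
  | [] => by simp
  | v :: l => by
    simp only [List.map_cons, List.prod_cons, List.sum_cons]
    rw [prod_map_monomial k r l, Polynomial.monomial_mul_monomial]

/-- **Polynomials.** -/
theorem evalWords_polynomial (c : ι → Z) (l : ι → List V) (hl : IsFull l)
    (h : ∀ r : V → A, evalWords c l r = 0) (x : V → A[X]) : evalWords c l x = 0 := by
  classical
  rw [← wordsMap_apply c l hl,
    show x = fun v => ∑ k ∈ (x v).support, Polynomial.monomial k ((x v).coeff k) from
      funext fun v => (x v).as_sum_support, MultilinearMap.map_sum_finset]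
  refine Finset.sum_eq_zero fun r _ => ?_
  rw [wordsMap_apply]
  obtain ⟨a, ha⟩ : ∃ a, a = fun v => (x v).coeff (r v) := ⟨_, rfl⟩
  have e : evalWords c l (fun v => Polynomial.monomial (r v) (a v)) =
      Polynomial.monomial (∑ v, r v) (evalWords c l a) := by
    have hs : ∀ i, ((l i).map fun v => r v).sum = ∑ v, r v := fun i => by
      rw [← List.sum_toFinset r (hl i).1]
      exact Finset.sum_congr (Finset.eq_univ_iff_forall.2 fun v => List.mem_toFinset.2 ((hl i).2 v))
        fun _ _ => rfl
    simp only [evalWords, prod_map_monomial, map_sum, Polynomial.smul_monomial, hs]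
  rw [ha] at e
  rw [e, h, map_zero]

end FA.Posner
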