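import Fermat.Agent.Regev.Main
import Fermat.Agent.Posner.Words
import Mathlib.Logic.Equiv.Fin.Basic
import Mathlib.Logic.Equiv.Option
import Mathlib.RingTheory.Jacobson.Radical
import Mathlib.RingTheory.Jacobson.Ideal
import Mathlib.RingTheory.Polynomial.Nilpotent
import Mathlib.RingTheory.Polynomial.Subring
import Mathlib.Tactic.IntervalCases

/-!
# Semiprime algebras with an identity

Such an algebra has no nil right ideal: an element `c` with `c ^ 2` killing the ideal lowers the
degree of the identity on `c T`. By Amitsur's argument on commuting coefficients its polynomial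
algebra then has zero Jacobson radical.
-/

set_option autoImplicit false

noncomputable section

namespace FA.Posner

open Equiv
open scoped Polynomial
open FA.Regev (IsMultiId)

/-- The ring is semiprime: `x R x = 0` forces `x = 0`. -/
def IsSemiprimeRing (R : Type*) [Ring R] : Prop := ∀ x : R, (∀ r, x * r * x = 0) → x = 0

/-- The set is a right ideal. -/
structure IsRightSubideal {R : Type*} [Ring R] (T : Set R) : Prop where
  zero_mem : (0 : R) ∈ T
  add_mem : ∀ t ∈ T, ∀ s ∈ T, t + s ∈ T
  mul_mem : ∀ t ∈ T, ∀ r : R, t * r ∈ T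

/-- An adjacent pair whose product kills what follows. -/
theorem prod_ofFn_mul_eq_zero {R : Type*} [Ring R] : ∀ {n : ℕ} (y : Fin (n + 1) → R) (k : Fin n)
    {T : Set R} {s : R}, s ∈ T → (∀ (i : Fin (n + 1)) (t : R), t ∈ T → y i * t ∈ T) →
    (∀ t ∈ T, y k.castSucc * (y k.succ * t) = 0) → (List.ofFn y).prod * s = 0
  | 0, _, k, _, _, _, _, _ => k.elim0
  | n + 1, y, k, T, s, hs, hT, h => by
    have hrest : ∀ {m : ℕ} (z : Fin m → R), (∀ (i : Fin m) (t : R), t ∈ T → z i * t ∈ T) →
        (List.ofFn z).prod * s ∈ T := by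
      intro m
      induction m with
      | zero => intro z _; simpa using hs
      | succ m ih =>
        intro z hz
        rw [List.ofFn_succ, List.prod_cons, mul_assoc]
        exact hz 0 _ (ih _ fun i => hz i.succ)
    rw [List.ofFn_succ, List.prod_cons, mul_assoc]
    induction k using Fin.cases with
    | zero =>
      rw [List.ofFn_succ, List.prod_cons, mul_assoc]
      exact h _ (hrest _ fun i => hT _)
    | succ k =>
      rw [prod_ofFn_mul_eq_zero (fun i => y i.succ) k hs (fun i => hT i.succ) (by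
        simpa only [Fin.succ_castSucc] using h), mul_zero]

variable {K : Type*} [Field K] {R : Type*} [Ring R] [Algebra K R]

/-- **Degree descent.** -/
theorem eq_zero_of_nil (hR : IsSemiprimeRing R) : ∀ (d : ℕ) (a : Perm (Fin d) → K), a ≠ 0 →
    ∀ T : Set R, IsRightSubideal T → (∀ t ∈ T, IsNilpotent t) →
      (∀ x : Fin d → R, (∀ i, x i ∈ T) → ∀ s ∈ T,
        (∑ σ, a σ • (List.ofFn fun i => x (σ i)).prod) * s = 0) → ∀ t ∈ T, t = 0
  | 0, a, ha, T, _, _, hid, t, ht => by
    obtain ⟨τ, hτ⟩ := Function.ne_iff.1 ha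
    rw [Pi.zero_apply] at hτ
    have h := hid Fin.elim0 (fun i => i.elim0) t ht
    rw [Fintype.sum_subsingleton _ τ] at h
    simpa [hτ] using h
  | 1, a, ha, T, hT, _, hid, t, ht => by
    obtain ⟨τ, hτ⟩ := Function.ne_iff.1 ha
    rw [Pi.zero_apply] at hτ
    refine hR t fun r => ?_
    have h := hid (fun _ => t * r) (fun _ => hT.mul_mem t ht r) t ht
    rw [Fintype.sum_subsingleton _ τ] at h
    simpa [hτ, mul_assoc] using h
  | d + 2, a, ha, T, hT, hnil, hid, t, ht => by
    classical
    by_cases hall : ∀ x ∈ T, ∀ s ∈ T, x * s = 0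
    · exact hR t fun r => hall _ (hT.mul_mem t ht r) t ht
    exfalso
    push Not at hall
    obtain ⟨x, hx, s₀, hs₀, hxs⟩ := hall
    obtain ⟨c, hc, s₁, hs₁, hcs, hcc⟩ :
        ∃ c ∈ T, ∃ s ∈ T, c * s ≠ 0 ∧ ∀ s ∈ T, c * (c * s) = 0 := by
      obtain ⟨q, hq⟩ := hnil x hx
      have hex : ∃ k, ∀ s ∈ T, x ^ k * s = 0 := ⟨q, fun s _ => by rw [hq, zero_mul]⟩
      have h2 : 2 ≤ Nat.find hex := by
        by_contra hlt
        have h0 : x ^ Nat.find hex * s₀ = 0 := Nat.find_spec hex s₀ hs₀
        interval_cases hk : Nat.find hex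
        · exact hxs (by rw [pow_zero, one_mul] at h0; rw [h0, mul_zero])
        · exact hxs (by rwa [pow_one] at h0)
      obtain ⟨k, hk⟩ : ∃ k, Nat.find hex = k + 2 := ⟨_, (Nat.sub_add_cancel h2).symm⟩
      have hlt := Nat.find_min hex (show k + 1 < Nat.find hex by omega)
      push Not at hlt
      obtain ⟨s, hs, hne⟩ := hlt
      refine ⟨x ^ (k + 1), by rw [pow_succ']; exact hT.mul_mem x hx _, s, hs, hne, fun s hs => ?_⟩
      rw [← mul_assoc, ← pow_add, show k + 1 + (k + 1) = k + Nat.find hex by omega, pow_add,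
        mul_assoc, Nat.find_spec hex s hs, mul_zero]
    obtain ⟨τ₀, hτ₀⟩ := Function.ne_iff.1 ha
    set j := τ₀ (Fin.last (d + 1)) with hj
    set ext : Perm (Fin (d + 1)) → Perm (Fin (d + 2)) := fun ρ =>
      finSuccEquivLast.trans (ρ.optionCongr.trans (finSuccEquiv' j).symm)
    have hlast : ∀ ρ, ext ρ (Fin.last _) = j := fun ρ => by simp [ext]
    have hcast : ∀ ρ (i : Fin (d + 1)), ext ρ i.castSucc = j.succAbove (ρ i) := fun ρ i => by
      simp [ext]
    have hinj : Function.Injective ext := fun ρ π h => Equiv.ext fun i =>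
      Fin.succAbove_right_injective (by rw [← hcast ρ, ← hcast π, h])
    have hsurj : ∀ σ : Perm (Fin (d + 2)), σ (Fin.last _) = j → ∃ ρ, ext ρ = σ := fun σ hσ => by
      have hne : ∀ i : Fin (d + 1), ∃ l, j.succAbove l = σ i.castSucc := fun i =>
        Fin.exists_succAbove_eq (hσ ▸ σ.injective.ne (Fin.castSucc_ne_last i))
      choose ρ hρ using hne
      refine ⟨Equiv.ofBijective ρ (Finite.injective_iff_bijective.1 fun i l h =>
        Fin.castSucc_injective _ (σ.injective (by rw [← hρ i, ← hρ l, h]))), Equiv.ext fun i => ?_⟩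
      induction i using Fin.lastCases with
      | last => rw [hlast, hσ]
      | cast i => rw [hcast]; exact hρ i
    have ha' : (fun ρ => a (ext ρ)) ≠ 0 := fun h => by
      obtain ⟨ρ, hρ⟩ := hsurj τ₀ hj.symm
      exact hτ₀ (by rw [← hρ]; exact congrFun h ρ)
    -- the lower identity on `c T`
    have hstep : ∀ (w : Fin (d + 1) → R), (∀ i, w i ∈ T) → ∀ u ∈ T, ∀ s ∈ T,
        (∑ ρ, a (ext ρ) • (List.ofFn fun i => c * w (ρ i)).prod) * (u * (c * s)) = 0 := by
      intro w hw u hu s hs
      set y : Fin (d + 2) → R := Fin.insertNth (α := fun _ => R) j (u * c) fun i => c * w i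
      have hy : ∀ i, y i ∈ T := fun i => by
        induction i using j.succAboveCases with
        | x => simpa [y] using hT.mul_mem u hu c
        | p i => simpa [y] using hT.mul_mem c hc _
      have h := hid y hy s hs
      rw [Finset.sum_mul, ← Fintype.sum_of_injective ext hinj
        (fun ρ => a (ext ρ) • (List.ofFn fun i => c * w (ρ i)).prod * (u * (c * s))) _
        (fun σ hσ => ?_) fun ρ => ?_] at h
      · rw [Finset.sum_mul]; exact h
      · have hσ' : σ (Fin.last _) ≠ j := fun e => hσ (hsurj σ e)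
        obtain ⟨k, hk⟩ := Fin.exists_castSucc_eq.2 (show σ.symm j ≠ Fin.last _ from fun e =>
          hσ' (by rw [← e, σ.apply_symm_apply]))
        rw [smul_mul_assoc, prod_ofFn_mul_eq_zero _ k hs
          (fun i t _ => hT.mul_mem _ (hy (σ i)) t) (fun t ht => ?_), smul_zero]
        obtain ⟨l, hl⟩ := Fin.exists_succAbove_eq (show σ k.succ ≠ j from fun e => by
          have h' := hk
          rw [← e, σ.symm_apply_apply] at h'
          exact (Fin.castSucc_lt_succ (i := k)).ne h')
        rw [← hl, hk, σ.apply_symm_apply]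
        simp only [y, Fin.insertNth_apply_same, Fin.insertNth_apply_succAbove, mul_assoc]
        rw [hcc _ (hT.mul_mem _ (hw l) t), mul_zero]
      · rw [smul_mul_assoc, smul_mul_assoc, List.ofFn_succ' (fun i => y (ext ρ i)),
          List.prod_concat]
        simp only [hlast, hcast, y, Fin.insertNth_apply_same, Fin.insertNth_apply_succAbove,
          mul_assoc]
    refine hcs (eq_zero_of_nil hR (d + 1) _ ha' {z | ∃ t ∈ T, z = c * t}
      ⟨⟨0, hT.zero_mem, by rw [mul_zero]⟩, fun z ⟨t, ht, e⟩ z' ⟨t', ht', e'⟩ =>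
        ⟨t + t', hT.add_mem t ht t' ht', by rw [e, e', mul_add]⟩, fun z ⟨t, ht, e⟩ r =>
        ⟨t * r, hT.mul_mem t ht r, by rw [e, mul_assoc]⟩⟩
      (fun z ⟨t, ht, e⟩ => hnil z (e ▸ hT.mul_mem c hc t)) (fun z hz s hs => ?_)
      (c * s₁) ⟨s₁, hs₁, rfl⟩)
    choose w hw hzw using hz
    rw [show z = fun i => c * w i from funext hzw]
    set g := ∑ ρ, a (ext ρ) • (List.ofFn fun i => c * w (ρ i)).prod with hg
    obtain ⟨w', hw', hgw⟩ : ∃ w' ∈ T, g = c * w' := by
      refine ⟨∑ ρ : Perm (Fin (d + 1)), a (ext ρ) •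
        (w (ρ 0) * (List.ofFn fun i : Fin d => c * w (ρ i.succ)).prod),
        Finset.sum_induction _ (· ∈ T) (fun a b ha hb => hT.add_mem a ha b hb) hT.zero_mem
          fun ρ _ => ?_, ?_⟩
      · rw [← mul_smul_comm]
        exact hT.mul_mem _ (hw _) _
      · rw [hg, Finset.mul_sum]
        refine Finset.sum_congr rfl fun ρ _ => ?_
        rw [List.ofFn_succ, List.prod_cons, mul_smul_comm, mul_assoc]
    obtain ⟨t', ht', rfl⟩ := hs
    refine hR _ fun r => ?_
    have h := hstep w hw (c * t' * r) (hT.mul_mem _ (hT.mul_mem c hc t') r)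
      (w' * (c * t')) (hT.mul_mem w' hw' _)
    rw [← hg] at h
    conv_lhs => arg 2; rw [hgw]
    simpa only [mul_assoc] using h

/-- **No nil right ideals.** -/
theorem eq_zero_of_mem_nil (hR : IsSemiprimeRing R) {d : ℕ} {a : Perm (Fin d) → K}
    (hid : IsMultiId R a) (ha : a ≠ 0) {T : Set R} (hT : IsRightSubideal T)
    (hnil : ∀ t ∈ T, IsNilpotent t) {t : R} (ht : t ∈ T) : t = 0 :=
  eq_zero_of_nil hR d a ha T hT hnil (fun x _ s _ => by rw [hid x, zero_mul]) t ht

theorem isUnit_one_sub_of_mem_jacobson {S : Type*} [Ring S] {x : S} (hx : x ∈ Ring.jacobson S) :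
    IsUnit (1 - x) := by
  have hleft : ∀ y ∈ Ring.jacobson S, ∃ z, z * (1 - y) = 1 := fun y hy => by
    by_contra hc
    obtain ⟨m, hm, hle⟩ := Ideal.exists_le_maximal (Ideal.span {1 - y}) fun htop =>
      hc (Ideal.mem_span_singleton'.1 (htop ▸ Submodule.mem_top))
    refine hm.ne_top ((Ideal.eq_top_iff_one m).2 ?_)
    have h1 := m.add_mem (hle (Ideal.mem_span_singleton_self _))
      (Ring.jacobson_le_of_isMaximal m hy)
    rwa [sub_add_cancel] at h1
  obtain ⟨z, hz⟩ := hleft x hx
  have hz' : z = 1 - -(z * x) := by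
    rw [mul_sub, mul_one, sub_eq_iff_eq_add] at hz
    rw [sub_neg_eq_add]; exact hz
  obtain ⟨w, hw⟩ := hleft _ (neg_mem (Ideal.mul_mem_left _ z hx))
  rw [← hz'] at hw
  have hwx : w = 1 - x := by
    calc w = w * (z * (1 - x)) := by rw [hz, mul_one]
      _ = 1 - x := by rw [← mul_assoc, hw, one_mul]
  exact ⟨⟨1 - x, z, hwx ▸ hw, hz⟩, rfl⟩

/-- **Amitsur's theorem.** -/
theorem jacobson_polynomial_eq_bot (hR : IsSemiprimeRing R) {d : ℕ} {a : Perm (Fin d) → K}
    (hid : IsMultiId R a) (ha : a ≠ 0) : Ring.jacobson R[X] = ⊥ := by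
  classical
  by_contra hne
  have hex : ∃ k, ∃ p ∈ Ring.jacobson R[X], p ≠ 0 ∧ p.support.card = k := by
    obtain ⟨p, hp, hp0⟩ := Submodule.exists_mem_ne_zero_of_ne_bot hne
    exact ⟨_, p, hp, hp0, rfl⟩
  obtain ⟨p₀, hp₀, hp₀0, hcard⟩ := Nat.find_spec hex
  have hmin : ∀ p ∈ Ring.jacobson R[X], p.support.card < p₀.support.card → p = 0 := fun p hp h => by
    by_contra h0
    exact Nat.find_min hex (hcard ▸ h) ⟨p, hp, h0, rfl⟩
  obtain ⟨k, hk⟩ := Polynomial.support_nonempty.2 hp₀0
  set J := Ring.jacobson R[X]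
  set T : Set R := {r | ∃ p ∈ J, p.support ⊆ p₀.support ∧ p.coeff k = r}
  have hT : IsRightSubideal T := by
    refine ⟨⟨0, J.zero_mem, by simp, rfl⟩, ?_, ?_⟩
    · rintro _ ⟨p, hp, hs, rfl⟩ _ ⟨q, hq, hs', rfl⟩
      exact ⟨p + q, J.add_mem hp hq, Polynomial.support_add.trans (Finset.union_subset hs hs'),
        Polynomial.coeff_add _ _ _⟩
    · rintro _ ⟨p, hp, hs, rfl⟩ r
      refine ⟨p * Polynomial.C r, Ideal.mul_mem_right _ J hp, fun i hi => hs ?_, by simp⟩
      rw [Polynomial.mem_support_iff, Polynomial.coeff_mul_C] at hi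
      exact Polynomial.mem_support_iff.2 fun h0 => hi (by rw [h0, zero_mul])
  refine Polynomial.mem_support_iff.1 hk (eq_zero_of_mem_nil hR hid ha hT ?_
    ⟨p₀, hp₀, subset_rfl, rfl⟩)
  rintro _ ⟨p, hp, hs, rfl⟩
  have hcomm : ∀ i j, p.coeff i * p.coeff j = p.coeff j * p.coeff i := fun i j => by
    by_cases hj : p.coeff j = 0
    · simp [hj]
    have hjs : j ∈ p₀.support := hs (Polynomial.mem_support_iff.2 hj)
    have h0 : p * Polynomial.C (p.coeff j) - Polynomial.C (p.coeff j) * p = 0 := by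
      refine hmin _ (J.sub_mem (Ideal.mul_mem_right _ J hp) (J.mul_mem_left _ hp))
        (Finset.card_lt_card (Finset.ssubset_iff_of_subset (fun i hi => hs ?_) |>.2
          ⟨j, hjs, by simp⟩))
      rw [Polynomial.mem_support_iff, Polynomial.coeff_sub, Polynomial.coeff_mul_C,
        Polynomial.coeff_C_mul] at hi
      exact Polynomial.mem_support_iff.2 fun h => hi (by rw [h, zero_mul, mul_zero, sub_zero])
    have := congrArg (fun q : R[X] => q.coeff i) h0
    simpa [sub_eq_zero] using this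
  set S := Set.range p.coeff
  set B := Subring.centralizer (Subring.centralizer S : Set R)
  have hSB : ∀ i, p.coeff i ∈ B := fun i =>
    Subring.mem_centralizer_iff.2 fun z hz => (hz _ ⟨i, rfl⟩).symm
  let : CommRing B :=
    { (inferInstance : Ring B) with
      mul_comm := fun x y => Subtype.ext (Subring.mem_centralizer_iff.1 y.2 x
        (Subring.mem_centralizer_iff.2 fun z hz => by
          obtain ⟨i, rfl⟩ := hz
          exact Subring.mem_centralizer_iff.1 x.2 _
            (Subring.mem_centralizer_iff.2 fun z hz => by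
              obtain ⟨l, rfl⟩ := hz
              exact hcomm l i))) }
  obtain ⟨u, hu⟩ := isUnit_one_sub_of_mem_jacobson (Ideal.mul_mem_right Polynomial.X J hp)
  have hq : ∀ i, (↑u⁻¹ : R[X]).coeff i ∈ B := fun i => Subring.mem_centralizer_iff.2 fun z hz => by
    have hc : Commute (Polynomial.C z) (u : R[X]) := by
      rw [hu]
      refine (Commute.one_right _).sub_right (Commute.mul_right ?_ (Polynomial.commute_X _).symm)
      refine Polynomial.ext fun l => ?_
      rw [Polynomial.coeff_C_mul, Polynomial.coeff_mul_C]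
      exact (hz _ ⟨l, rfl⟩).symm
    have := congrArg (fun q : R[X] => q.coeff i) hc.units_inv_right.eq
    simpa using this
  have hpX : ∀ i, (1 - p * Polynomial.X : R[X]).coeff i ∈ B := fun i => by
    rcases i with _ | i
    · simp
    · simpa [Polynomial.coeff_one] using hSB i
  set P : B[X] := (1 - p * Polynomial.X : R[X]).toSubring B fun x hx => by
    obtain ⟨i, -, rfl⟩ := Polynomial.mem_coeffs_iff.1 hx
    exact hpX i
  set Q : B[X] := (↑u⁻¹ : R[X]).toSubring B fun x hx => by
    obtain ⟨i, -, rfl⟩ := Polynomial.mem_coeffs_iff.1 hx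
    exact hq i
  have hPQ : P * Q = 1 := by
    refine Polynomial.map_injective B.subtype Subtype.val_injective ?_
    rw [Polynomial.map_mul, Polynomial.map_one]
    erw [Polynomial.map_toSubring, Polynomial.map_toSubring]
    rw [← hu, Units.mul_inv]
  have hn := (Polynomial.isUnit_iff_coeff_isUnit_isNilpotent.1 (IsUnit.of_mul_eq_one _ hPQ)).2
    (k + 1) (Nat.succ_ne_zero k)
  have := hn.map B.subtype
  simpa [P, Polynomial.coeff_one] using this

end FA.Posner
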