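import Fermat.Agent.CSA.Tensor
import Fermat.Agent.KaplanskyPI.PrimitivePI
import Fermat.Agent.Posner.Central
import Fermat.Agent.Posner.Semiprime
import Mathlib.FieldTheory.IsAlgClosed.AlgebraicClosure
import Mathlib.LinearAlgebra.Dimension.Constructions
import Mathlib.RingTheory.SimpleModule.IsAlgClosed

/-!
# Rowen's theorem

The primitive images of the polynomial algebra are central simple of bounded dimension. Razmyslov's
polynomial of the largest size is central on all of them and not zero on one.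
-/

set_option autoImplicit false

noncomputable section

namespace FA.Posner

open Equiv Matrix
open scoped Polynomial TensorProduct
open FA.Regev (IsMultiId)

theorem cPoly_int {n : ℕ} {A : Type*} [Ring A] {Z : Type*} [CommRing Z] [Algebra Z A]
    (x : CVar n → A) : cPoly Z x = cPoly ℤ x := by
  rw [cPoly_eq, cPoly_eq]

theorem map_cPoly {n : ℕ} {A B : Type*} [Ring A] [Ring B] (f : A →+* B) (x : CVar n → A) :
    f (cPoly ℤ x) = cPoly ℤ fun v => f (x v) :=
  map_evalWords f.toIntAlgHom _ _ x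

theorem map_cPoly_alg {n : ℕ} {Z A B : Type*} [CommRing Z] [Ring A] [Ring B] [Algebra Z A]
    [Algebra Z B] (f : A →ₐ[Z] B) (x : CVar n → A) :
    f (cPoly ℤ x) = cPoly ℤ fun v => f (x v) := by
  rw [← cPoly_int (Z := Z) x, ← cPoly_int (Z := Z)]
  exact map_evalWords f _ _ x

section simple

universe w

variable (S : Type w) [Ring S] [IsSimpleRing S] [Module.Finite (Subring.center S) S]

/-- A simple algebra finite over its centre splits. -/
theorem exists_splitting :
    ∃ (L : Type w) (_ : Field L) (_ : Algebra (Subring.center S) L) (m : ℕ),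
      Module.finrank (Subring.center S) S = m * m ∧ 0 < m ∧
      Nonempty (L ⊗[Subring.center S] S ≃ₐ[L] Matrix (Fin m) (Fin m) L) ∧
      Function.Injective fun r : S => (1 : L) ⊗ₜ[Subring.center S] r := by
  let : Field (Subring.center S) := (IsSimpleRing.isField_center S).toField
  have : Algebra.IsCentral (Subring.center S) S := ⟨fun x hx => Algebra.mem_bot.2
    ⟨⟨x, Subring.mem_center_iff.2 (Subalgebra.mem_center_iff.1 hx)⟩, rfl⟩⟩
  let L := AlgebraicClosure (Subring.center S)
  have : IsSimpleRing (L ⊗[Subring.center S] S) :=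
    FA.CSA.isSimpleRing_tensorProduct (Subring.center S) L S
  obtain ⟨m, hm, ⟨e⟩⟩ := IsSimpleRing.exists_algEquiv_matrix_of_isAlgClosed L
    (L ⊗[Subring.center S] S)
  refine ⟨L, inferInstance, inferInstance, m, ?_, Nat.pos_of_ne_zero hm.ne, ⟨e⟩,
    Algebra.TensorProduct.includeRight_injective (algebraMap (Subring.center S) L).injective⟩
  rw [← Module.finrank_baseChange (R := L), e.toLinearEquiv.finrank_eq, Module.finrank_matrix,
    Fintype.card_fin, Module.finrank_self, mul_one]

/-- Small dimension: the values are central. -/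
theorem cPoly_comm {n : ℕ} (hn : Module.finrank (Subring.center S) S ≤ n * n) (x : CVar n → S)
    (r : S) : cPoly ℤ x * r = r * cPoly ℤ x := by
  obtain ⟨L, _, _, m, hD, -, ⟨e⟩, hinj⟩ := exists_splitting S
  set f : S →+* Matrix (Fin m) (Fin m) L := e.toAlgHom.toRingHom.comp
    (Algebra.TensorProduct.includeRight (R := Subring.center S) (A := L) (B := S)).toRingHom
  refine (show Function.Injective f from e.injective.comp hinj) ?_
  rw [map_mul, map_mul, map_cPoly, ← cPoly_int (Z := L)]
  have hmn : m ≤ n := Nat.mul_self_le_mul_self_iff.1 (hD ▸ hn)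
  rcases hmn.eq_or_lt with rfl | hlt
  · rw [cPoly_eq_smul, Matrix.smul_mul, Matrix.mul_smul, one_mul, mul_one]
  · rw [cPoly_eq_zero hlt, zero_mul, mul_zero]

/-- The right dimension: some value is not zero. -/
theorem exists_cPoly_ne_zero {n : ℕ} (hn : Module.finrank (Subring.center S) S = n * n) :
    ∃ x : CVar n → S, cPoly ℤ x ≠ 0 := by
  classical
  by_contra! h
  obtain ⟨L, _, _, m, hD, hm, ⟨e⟩, -⟩ := exists_splitting S
  obtain rfl : m = n := Nat.mul_self_inj.1 (hD.symm.trans hn)
  obtain ⟨x, hx⟩ := exists_cPoly_eq_one m L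
  have h0 : cPoly (Subring.center S) (fun v => e.symm (x v)) = 0 :=
    evalWords_tensor _ _ isFull_cWord (fun r => (cPoly_int r).trans (h r)) _
  rw [cPoly_int] at h0
  have h1 := congrArg e.toAlgHom h0
  rw [map_cPoly_alg, map_zero, ← cPoly_int (Z := L)] at h1
  rw [show (fun v => e.toAlgHom (e.symm (x v))) = x from funext fun v => e.apply_symm_apply _,
    hx] at h1
  exact one_ne_zero (congrFun (congrFun h1 ⟨0, hm⟩) ⟨0, hm⟩ |>.trans (Matrix.zero_apply _ _) |>
    (Matrix.one_apply_eq (⟨0, hm⟩ : Fin m)).symm.trans)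

end simple

section primitive

variable {K : Type*} [Field K] {P : Type*} [Ring P] [Algebra K P]

/-- The image of the algebra in the endomorphisms of a module. -/
abbrev image (K : Type*) [Field K] (P : Type*) [Ring P] [Algebra K P] (M : Type*) [AddCommGroup M]
    [Module P M] [Module K M] [IsScalarTower K P M] : Subalgebra K (Module.End K M) :=
  (Algebra.lsmul K K M : P →ₐ[K] Module.End K M).range

/-- **Kaplansky's theorem for the images.** -/
theorem image_simple {M : Type*} [AddCommGroup M] [Module P M] [Module K M] [IsScalarTower K P M]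
    [IsSimpleModule P M] {d : ℕ} {a : Perm (Fin d) → K} (hid : IsMultiId P a) (ha : a ≠ 0) :
    IsSimpleRing (image K P M) ∧ Module.Finite (Subring.center (image K P M)) (image K P M) ∧
      Module.finrank (Subring.center (image K P M)) (image K P M) ≤ (d / 2) ^ 2 := by
  have : IsSimpleModule (image K P M) M := by
    refine isSimpleModule_iff_toSpanSingleton_surjective.2
      ⟨IsSimpleModule.nontrivial P M, fun m hm m' => ?_⟩
    obtain ⟨r, hr⟩ := IsSimpleModule.toSpanSingleton_surjective P hm m'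
    exact ⟨⟨_, AlgHom.mem_range_self _ r⟩, hr⟩
  have : FaithfulSMul (image K P M) M := ⟨fun h => Subtype.ext (LinearMap.ext h)⟩
  have hid' : Fermat.Agent.KaplanskyPI.IsMultilinearIdentity (image K P M) a := fun x => by
    choose y hy using fun i => (x i).2
    have h := congrArg (Algebra.lsmul K K M : P →ₐ[K] Module.End K M).rangeRestrict (hid y)
    rw [show x = fun i => (Algebra.lsmul K K M : P →ₐ[K] Module.End K M).rangeRestrict (y i) from
      funext fun i => Subtype.ext (hy i).symm]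
    simpa [map_list_prod, List.map_ofFn, Function.comp_def] using h
  obtain ⟨σ, hσ⟩ := Function.ne_iff.1 ha
  exact Fermat.Agent.KaplanskyPI.kaplansky_multilinear (M := M) hid' (isUnit_iff_ne_zero.2 hσ)

end primitive

variable {K : Type*} [Field K] {R : Type*} [Ring R] [Algebra K R]

/-- **Rowen's theorem.** -/
theorem exists_central_mem (hR : IsSemiprimeRing R) {d : ℕ} {a : Perm (Fin d) → K}
    (hid : IsMultiId R a) (ha : a ≠ 0) {I : TwoSidedIdeal R} {c₀ : R} (hc₀ : c₀ ∈ I)
    (hne : c₀ ≠ 0) :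
    ∃ c ∈ I, c ≠ 0 ∧ c ∈ Subring.center R := by
  classical
  have hidP : IsMultiId R[X] a := fun x => by
    have hl : IsFull fun σ : Perm (Fin d) => List.ofFn σ := fun σ =>
      ⟨List.nodup_ofFn.2 σ.injective, fun v => List.mem_ofFn.2 ⟨σ.symm v, σ.apply_symm_apply v⟩⟩
    have := evalWords_polynomial a _ hl (fun r => by
      simpa [evalWords, List.map_ofFn, Function.comp_def] using hid r) x
    simpa [evalWords, List.map_ofFn, Function.comp_def] using this
  have hJ := jacobson_polynomial_eq_bot hR hid ha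
  set It : Set R[X] := {p | ∀ i, p.coeff i ∈ I}
  have hItl : ∀ p q : R[X], q ∈ It → p * q ∈ It := fun p q hq i => by
    rw [Polynomial.coeff_mul]
    exact sum_mem fun x _ => I.mul_mem_left _ _ (hq _)
  have hItr : ∀ p q : R[X], p ∈ It → p * q ∈ It := fun p q hp i => by
    rw [Polynomial.coeff_mul]
    exact sum_mem fun x _ => I.mul_mem_right _ _ (hp _)
  let π : ∀ m : Ideal R[X], R[X] →ₐ[K] image K R[X] (R[X] ⧸ m) := fun m =>
    (Algebra.lsmul K K (R[X] ⧸ m) : R[X] →ₐ[K] Module.End K (R[X] ⧸ m)).rangeRestrict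
  have hπ : ∀ (m : Ideal R[X]) p, π m p = 0 → p ∈ m := fun m p hp => by
    have h := congrArg (fun f => (Subtype.val f) (Submodule.Quotient.mk (1 : R[X]))) hp
    have h' : p • (Submodule.Quotient.mk (1 : R[X]) : R[X] ⧸ m) = 0 := h
    rwa [← Submodule.Quotient.mk_smul, smul_eq_mul, mul_one, Submodule.Quotient.mk_eq_zero] at h'
  have hsimple : ∀ {m : Ideal R[X]}, m.IsMaximal → IsSimpleModule R[X] (R[X] ⧸ m) :=
    fun hm => isSimpleModule_iff_isCoatom.2 (Ideal.isMaximal_def.1 hm)
  have hzero : ∀ p, (∀ m : Ideal R[X], m.IsMaximal → π m p = 0) → p = 0 := fun p hp => by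
    have : p ∈ Ring.jacobson R[X] := by
      rw [Ring.jacobson_eq_sInf_isMaximal]
      exact Submodule.mem_sInf.2 fun m hm => hπ m p (hp m hm)
    rwa [hJ, Submodule.mem_bot] at this
  set 𝒟 : Set ℕ := {k | ∃ m : Ideal R[X], m.IsMaximal ∧ (∃ p ∈ It, π m p ≠ 0) ∧
    Module.finrank (Subring.center (image K R[X] (R[X] ⧸ m))) (image K R[X] (R[X] ⧸ m)) = k}
  have hbdd : BddAbove 𝒟 := ⟨(d / 2) ^ 2, by
    rintro k ⟨m, hm, -, rfl⟩
    have := hsimple hm
    exact (image_simple (M := R[X] ⧸ m) hidP ha).2.2⟩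
  have hne𝒟 : 𝒟.Nonempty := by
    by_contra hemp
    refine hne (Polynomial.C_eq_zero.1 (hzero (Polynomial.C c₀) fun m hm => ?_))
    by_contra h
    exact hemp ⟨_, m, hm, ⟨_, fun i => by
      rw [Polynomial.coeff_C]; split_ifs
      exacts [hc₀, I.zero_mem], h⟩, rfl⟩
  obtain ⟨m₀, hm₀, ⟨p₀, hp₀, hp₀'⟩, hD⟩ := Nat.sSup_mem hne𝒟 hbdd
  have := hsimple hm₀
  obtain ⟨hsr, hfin, -⟩ := image_simple (M := R[X] ⧸ m₀) hidP ha
  obtain ⟨L, _, _, n, hn, -, -, -⟩ := exists_splitting (image K R[X] (R[X] ⧸ m₀))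
  have hval : ∀ z : CVar n → R[X], (∀ v, z v ∈ It) →
      cPoly ℤ z ∈ It ∧ ∀ r, cPoly ℤ z * r = r * cPoly ℤ z := fun z hz => by
    constructor
    · rw [cPoly_eq]
      exact fun i => by
        rw [Polynomial.finsetSum_coeff]
        exact sum_mem fun j _ => hItr _ _ (hItr _ _ (hz _)) i
    · intro r
      refine sub_eq_zero.1 (hzero _ fun m hm => ?_)
      rw [map_sub, map_mul, map_mul, sub_eq_zero]
      have hmap : π m (cPoly ℤ z) = cPoly ℤ fun v => π m (z v) :=
        map_cPoly_alg (Z := K) (A := R[X]) (B := image K R[X] (R[X] ⧸ m)) (π m) z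
      by_cases h : ∃ p ∈ It, π m p ≠ 0
      · have := hsimple hm
        obtain ⟨hs, hf, -⟩ := image_simple (M := R[X] ⧸ m) hidP ha
        rw [hmap]
        exact cPoly_comm _ ((le_csSup hbdd ⟨m, hm, h, rfl⟩).trans (hD.symm.trans hn).le) _ _
      · push Not at h
        have hz0 : π m (cPoly ℤ z) = 0 := by
          rw [cPoly_eq, map_sum]
          exact Finset.sum_eq_zero fun i _ => h _ (hItr _ _ (hItr _ _ (hz _)))
        rw [hz0, zero_mul, mul_zero]
  obtain ⟨x, hx⟩ := exists_cPoly_ne_zero (image K R[X] (R[X] ⧸ m₀)) hn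
  have hsurj : ∀ y, ∃ p ∈ It, π m₀ p = y := fun y => by
    let J : TwoSidedIdeal (image K R[X] (R[X] ⧸ m₀)) := TwoSidedIdeal.mk' {y | ∃ p ∈ It, π m₀ p = y}
      ⟨0, fun i => by rw [Polynomial.coeff_zero]; exact I.zero_mem, map_zero _⟩
      (by rintro _ _ ⟨p, hp, rfl⟩ ⟨q, hq, rfl⟩
          exact ⟨p + q, fun i => by rw [Polynomial.coeff_add]; exact I.add_mem (hp i) (hq i),
            map_add _ _ _⟩)
      (by rintro _ ⟨p, hp, rfl⟩
          exact ⟨-p, fun i => by rw [Polynomial.coeff_neg]; exact I.neg_mem (hp i), map_neg _ _⟩)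
      (by rintro u _ ⟨p, hp, rfl⟩
          obtain ⟨q, rfl⟩ := AlgHom.rangeRestrict_surjective _ u
          exact ⟨q * p, hItl _ _ hp, map_mul _ _ _⟩)
      (by rintro _ u ⟨p, hp, rfl⟩
          obtain ⟨q, rfl⟩ := AlgHom.rangeRestrict_surjective _ u
          exact ⟨p * q, hItr _ _ hp, map_mul _ _ _⟩)
    have h1 := IsSimpleRing.one_mem_of_ne_zero_mem J hp₀'
      ((TwoSidedIdeal.mem_mk' _ _ _ _ _ _ _).2 ⟨p₀, hp₀, rfl⟩)
    have h2 := J.mul_mem_left y _ h1
    rw [mul_one] at h2
    exact (TwoSidedIdeal.mem_mk' {y | ∃ p ∈ It, π m₀ p = y} _ _ _ _ _ y).1 h2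
  choose z hz hzx using fun v => hsurj (x v)
  obtain ⟨hv, hvc⟩ := hval z hz
  have hv0 : cPoly ℤ z ≠ 0 := fun h => hx (by
    have h' := map_cPoly_alg (Z := K) (A := R[X]) (B := image K R[X] (R[X] ⧸ m₀)) (π m₀) z
    have h'' : π m₀ (cPoly ℤ z) = 0 := (congrArg (π m₀) h).trans (map_zero _)
    exact (congrArg (cPoly ℤ) (funext hzx)).symm.trans (h'.symm.trans h''))
  obtain ⟨i, hi⟩ := Polynomial.support_nonempty.2 hv0
  refine ⟨_, hv i, Polynomial.mem_support_iff.1 hi, Subring.mem_center_iff.2 fun r => ?_⟩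
  have := congrArg (fun q : R[X] => q.coeff i) (hvc (Polynomial.C r))
  simpa using this.symm

end FA.Posner
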